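/-
Lib/Unif (architect helper33): complex uniformisation of elliptic curves and analytic Velu.
File `Inj/Cauchy`.
-/
import Fermat.Agent.Lib.Unif.Deriv2
import Fermat.Agent.Lib.Unif.Ode

set_option autoImplicit false

noncomputable section

namespace Fermat.Agent.Lib.Unif

open Filter Topology

variable (L : PeriodPair)

theorem cauchy_eventually_notMem {z : ℂ} (hz : z ∉ L.lattice) :
    ∀ᶠ t in 𝓝 (0 : ℂ), z + t ∉ L.lattice := by
  have h1 : Tendsto (fun t : ℂ => z + t) (𝓝 0) (𝓝 z) := by
    have : Continuous fun t : ℂ => z + t := by fun_prop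
    simpa using this.tendsto 0
  exact h1.eventually (L.isClosed_lattice.isOpen_compl.mem_nhds hz)

theorem cauchy_analyticAt {z : ℂ} (hz : z ∉ L.lattice) :
    AnalyticAt ℂ (fun t => L.weierstrassP (z + t)) 0 :=
  AnalyticAt.comp_of_eq (L.analyticOnNhd_weierstrassP z hz) (analyticAt_const.add analyticAt_id)
    (by simp)

/-- same Cauchy data, hence the translates of `℘` agree near `0`
(`eventually_eq_zero_of_ode` with `d t = ℘ (z + t) - ℘ (w + t)`,
`c t = 6 * (℘ (z + t) + ℘ (w + t))`). -/
theorem eventuallyEq_of_cauchy {z w : ℂ} (hz : z ∉ L.lattice) (hw : w ∉ L.lattice)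
    (h0 : L.weierstrassP z = L.weierstrassP w)
    (h1 : L.derivWeierstrassP z = L.derivWeierstrassP w) :
    (fun t => L.weierstrassP (z + t)) =ᶠ[𝓝 0] fun t => L.weierstrassP (w + t) := by
  -- near `0` both translates stay off the lattice
  have hU : ∀ᶠ t in 𝓝 (0 : ℂ), z + t ∉ L.lattice ∧ w + t ∉ L.lattice :=
    (cauchy_eventually_notMem L hz).and (cauchy_eventually_notMem L hw)
  set d : ℂ → ℂ := fun t => L.weierstrassP (z + t) - L.weierstrassP (w + t) with hd
  set c : ℂ → ℂ := fun t => 6 * (L.weierstrassP (z + t) + L.weierstrassP (w + t)) with hc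
  have hAz : AnalyticAt ℂ (fun t => L.weierstrassP (z + t)) 0 := cauchy_analyticAt L hz
  have hAw : AnalyticAt ℂ (fun t => L.weierstrassP (w + t)) 0 := cauchy_analyticAt L hw
  have hdA : AnalyticAt ℂ d 0 := hAz.sub hAw
  have hcA : AnalyticAt ℂ c 0 := analyticAt_const.mul (hAz.add hAw)
  have hd1 : ∀ t, (z + t ∉ L.lattice ∧ w + t ∉ L.lattice) →
      HasDerivAt d (L.derivWeierstrassP (z + t) - L.derivWeierstrassP (w + t)) t := fun t ht =>
    ((hasDerivAt_wp L ht.1).comp_const_add z t).sub ((hasDerivAt_wp L ht.2).comp_const_add w t)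
  have hd2 : ∀ t, (z + t ∉ L.lattice ∧ w + t ∉ L.lattice) →
      HasDerivAt (fun s => L.derivWeierstrassP (z + s) - L.derivWeierstrassP (w + s))
        (wp2 L (z + t) - wp2 L (w + t)) t := fun t ht =>
    ((hasDerivAt_wp' L ht.1).comp_const_add z t).sub ((hasDerivAt_wp' L ht.2).comp_const_add w t)
  have hode : ∀ᶠ t in 𝓝 (0 : ℂ), deriv (deriv d) t = c t * d t := by
    filter_upwards [hU.eventually_nhds, hU] with t ht ht'
    have e : deriv d =ᶠ[𝓝 t]
        fun s => L.derivWeierstrassP (z + s) - L.derivWeierstrassP (w + s) :=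
      ht.mono fun s hs => (hd1 s hs).deriv
    rw [e.deriv_eq, (hd2 t ht').deriv]
    simp only [wp2, hc, hd]
    ring
  have h00 : d 0 = 0 := by
    simp only [hd, add_zero, h0, sub_self]
  have h10 : deriv d 0 = 0 := by
    rw [(hd1 0 (by simpa using ⟨hz, hw⟩)).deriv]
    simp only [add_zero, h1, sub_self]
  exact (eventually_eq_zero_of_ode hdA hcA hode h00 h10).mono fun t ht => sub_eq_zero.mp ht

end Fermat.Agent.Lib.Unif

end
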