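/-
Lib/Unif (architect helper33): complex uniformisation of elliptic curves and analytic Velu.
File `Inj/Ident`.
-/
import Fermat.Agent.Lib.Unif.Basic

set_option autoImplicit false

noncomputable section

namespace Fermat.Agent.Lib.Unif

open Filter Topology

variable (L : PeriodPair)

/-- identity theorem on the (preconnected, open) set where both translates are analytic
(`AnalyticOnNhd.eqOn_of_preconnected_of_eventuallyEq`, `isPreconnected_compl_of_countable`,
`PeriodPair.analyticOnNhd_weierstrassP`). -/
theorem eqOn_of_eventuallyEq {z w : ℂ} (hz : z ∉ L.lattice) (hw : w ∉ L.lattice)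
    (h : (fun t => L.weierstrassP (z + t)) =ᶠ[𝓝 0] fun t => L.weierstrassP (w + t)) :
    ∀ t : ℂ, z + t ∉ L.lattice → w + t ∉ L.lattice →
      L.weierstrassP (z + t) = L.weierstrassP (w + t) := by
  set S : Set ℂ := (fun t => z + t) ⁻¹' (L.lattice : Set ℂ) ∪ (fun t => w + t) ⁻¹' (L.lattice : Set ℂ)
    with hS
  have hcount : S.Countable :=
    ((countable_lattice L).preimage (add_right_injective z)).union
      ((countable_lattice L).preimage (add_right_injective w))
  have hpre : IsPreconnected Sᶜ := isPreconnected_compl_of_countable hcount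
  have han : ∀ a : ℂ, AnalyticOnNhd ℂ (fun t => L.weierstrassP (a + t))
      ((fun t => a + t) ⁻¹' (L.lattice : Set ℂ))ᶜ := by
    intro a t ht
    have h1 : AnalyticAt ℂ L.weierstrassP (a + t) := L.analyticOnNhd_weierstrassP (a + t) ht
    have h2 : AnalyticAt ℂ (fun t : ℂ => a + t) t := analyticAt_const.add analyticAt_id
    exact h1.comp h2
  have hf : AnalyticOnNhd ℂ (fun t => L.weierstrassP (z + t)) Sᶜ :=
    (han z).mono (Set.compl_subset_compl.2 Set.subset_union_left)
  have hg : AnalyticOnNhd ℂ (fun t => L.weierstrassP (w + t)) Sᶜ :=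
    (han w).mono (Set.compl_subset_compl.2 Set.subset_union_right)
  have h0 : (0 : ℂ) ∈ Sᶜ := by
    rintro (h1 | h1)
    · exact hz (by simpa using h1)
    · exact hw (by simpa using h1)
  have key := hf.eqOn_of_preconnected_of_eventuallyEq hg hpre h0 h
  intro t h1 h2
  refine key ?_
  rintro (h3 | h3)
  · exact h1 h3
  · exact h2 h3

end Fermat.Agent.Lib.Unif

end
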