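/-
Lib/Unif (architect helper33): complex uniformisation of elliptic curves and analytic Velu.
File `Inj/Period`.
-/
import Fermat.Agent.Lib.Unif.Basic

set_option autoImplicit false

noncomputable section

namespace Fermat.Agent.Lib.Unif

open Filter Topology

variable (L : PeriodPair)

/-- a translation which preserves `℘` (off the poles) is a period: if `z - w ∉ Λ` then
`t ↦ ℘ (z + t)` is analytic at `-w`, `t ↦ ℘ (w + t)` has a pole there
(`PeriodPair.order_weierstrassP`), and they agree on a punctured neighbourhood
(`meromorphicOrderAt_congr`). -/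
theorem sub_mem_lattice_of_eqOn {z w : ℂ}
    (h : ∀ t : ℂ, z + t ∉ L.lattice → w + t ∉ L.lattice →
      L.weierstrassP (z + t) = L.weierstrassP (w + t)) : z - w ∈ L.lattice := by
  by_contra hd
  set d : ℂ := z - w with hd_def
  -- the translated function is analytic at `0`
  have han : AnalyticAt ℂ (fun s : ℂ => L.weierstrassP (s + d)) 0 := by
    have h1 : AnalyticAt ℂ L.weierstrassP (0 + d) := by
      rw [zero_add]
      exact L.analyticOnNhd_weierstrassP d hd
    exact AnalyticAt.comp (g := L.weierstrassP) (f := fun s : ℂ => s + d) h1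
      (analyticAt_id.add analyticAt_const)
  have h0 : (0 : ℂ) ∈ L.lattice := L.lattice.zero_mem
  -- the two functions agree on a punctured neighbourhood of `0`
  have hev : (fun s : ℂ => L.weierstrassP (s + d)) =ᶠ[𝓝[≠] 0] L.weierstrassP := by
    have h1 : ∀ᶠ s in 𝓝 (0 : ℂ), s ∈ ((L.lattice : Set ℂ) \ {0})ᶜ :=
      L.compl_lattice_sdiff_singleton_mem_nhds 0
    have h2 : ∀ᶠ s in 𝓝 (0 : ℂ), s + d ∈ (L.lattice : Set ℂ)ᶜ := by
      have hc : ContinuousAt (fun s : ℂ => s + d) 0 := by fun_prop
      refine hc.eventually_mem (L.isClosed_lattice.isOpen_compl.mem_nhds ?_)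
      rw [zero_add]
      exact hd
    have h3 := (h1.and h2).filter_mono (nhdsWithin_le_nhds (s := ({0}ᶜ : Set ℂ)))
    filter_upwards [h3, self_mem_nhdsWithin] with s hs hs0
    have hsL : s ∉ L.lattice := fun hmem => hs.1 ⟨hmem, hs0⟩
    have hsd : s + d ∉ L.lattice := hs.2
    have := h (s - w) (by rwa [show z + (s - w) = s + d by rw [hd_def]; ring])
      (by rwa [show w + (s - w) = s by ring])
    rwa [show z + (s - w) = s + d by rw [hd_def]; ring, show w + (s - w) = s by ring] at this
  have hord := meromorphicOrderAt_congr hev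
  rw [L.order_weierstrassP 0 h0] at hord
  have hnn := han.meromorphicOrderAt_nonneg
  rw [hord] at hnn
  exact absurd hnn (by decide)

end Fermat.Agent.Lib.Unif

end
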